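import Mathlib

/-!
# PROJECT T (S56), block (a1-II), leaf (L-deg), part 1: the cyclotomic polynomials `Φ_{p^(n+1)}` are
irreducible over `ℚ_[p]`

Eisenstein's criterion over `ℤ_[p]` for `Φ_{p^(n+1)}(X + 1)` (Mathlib proves the criterion over `ℤ`),
then Gauss' lemma for the integrally closed domain `ℤ_[p]`.
-/

set_option autoImplicit false

namespace Fermat.Agent.S56.Base.Arith.CyclotomicPadic

open Polynomial

variable (p : ℕ) [hp : Fact p.Prime]

/-- `Φ_{p^(n+1)}(X + 1)` over `ℤ_[p]` -/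
noncomputable def shifted (n : ℕ) : ℤ_[p][X] := (cyclotomic (p ^ (n + 1)) ℤ_[p]).comp (X + 1)

theorem shifted_eq_map (n : ℕ) :
    shifted p n = ((cyclotomic (p ^ (n + 1)) ℤ).comp (X + 1)).map (Int.castRingHom ℤ_[p]) := by
  rw [shifted, Polynomial.map_comp, map_cyclotomic, Polynomial.map_add, map_X, Polynomial.map_one]

theorem shifted_monic (n : ℕ) : (shifted p n).Monic := by
  rw [shifted, show (X + 1 : ℤ_[p][X]) = X + C 1 by simp]
  refine (cyclotomic.monic _ ℤ_[p]).comp (monic_X_add_C 1) fun h => ?_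
  rw [natDegree_X_add_C] at h
  exact zero_ne_one h.symm

omit hp in
theorem monicZ (n : ℕ) : ((cyclotomic (p ^ (n + 1)) ℤ).comp (X + 1)).Monic := by
  rw [show (X + 1 : ℤ[X]) = X + C 1 by simp]
  refine (cyclotomic.monic _ ℤ).comp (monic_X_add_C 1) fun h => ?_
  rw [natDegree_X_add_C] at h
  exact zero_ne_one h.symm

theorem shifted_natDegree (n : ℕ) :
    (shifted p n).natDegree = ((cyclotomic (p ^ (n + 1)) ℤ).comp (X + 1)).natDegree := by
  rw [shifted_eq_map, (monicZ p n).natDegree_map]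

theorem shifted_natDegree_pos (n : ℕ) : 0 < (shifted p n).natDegree := by
  rw [shifted, show (X + 1 : ℤ_[p][X]) = X + C 1 by simp, natDegree_comp, natDegree_X_add_C,
    mul_one, natDegree_cyclotomic]
  exact Nat.totient_pos.mpr (pow_pos hp.out.pos _)

/-- Eisenstein's criterion at `p` over `ℤ_[p]` -/
theorem shifted_isEisensteinAt (n : ℕ) :
    (shifted p n).IsEisensteinAt (Ideal.span {(p : ℤ_[p])}) := by
  have hZ := cyclotomic_prime_pow_comp_X_add_one_isEisensteinAt p n
  have hne : Ideal.span {(p : ℤ_[p])} ≠ ⊤ := by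
    rw [← PadicInt.maximalIdeal_eq_span_p]
    exact Ideal.IsMaximal.ne_top inferInstance
  refine Monic.isEisensteinAt_of_mem_of_notMem (shifted_monic p n) hne ?_ ?_
  · intro i hi
    rw [shifted_natDegree] at hi
    have h1 := hZ.mem hi
    rw [Ideal.submodule_span_eq, Ideal.mem_span_singleton] at h1
    obtain ⟨c, hc⟩ := h1
    rw [shifted_eq_map, coeff_map, hc, Ideal.mem_span_singleton]
    exact ⟨(c : ℤ_[p]), by simp⟩
  · have h1 := hZ.notMem
    rw [Ideal.submodule_span_eq, Ideal.span_singleton_pow, Ideal.mem_span_singleton] at h1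
    rw [shifted_eq_map, coeff_map, Ideal.span_singleton_pow, Ideal.mem_span_singleton]
    intro h2
    apply h1
    have h3 : (p : ℤ_[p]) ^ 2 ∣ ((((cyclotomic (p ^ (n + 1)) ℤ).comp (X + 1)).coeff 0 : ℤ) : ℤ_[p]) :=
      by simpa using h2
    have h4 := (PadicInt.pow_p_dvd_int_iff 2 _).mp h3
    exact_mod_cast h4

theorem shifted_irreducible (n : ℕ) : Irreducible (shifted p n) := by
  refine (shifted_isEisensteinAt p n).irreducible ?_ (shifted_monic p n).isPrimitive
    (shifted_natDegree_pos p n)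
  rw [← PadicInt.maximalIdeal_eq_span_p]
  exact Ideal.IsMaximal.isPrime inferInstance

/-- **`Φ_{p^(n+1)}` is irreducible over `ℚ_[p]`.** -/
theorem irreducible_cyclotomic (n : ℕ) : Irreducible (cyclotomic (p ^ (n + 1)) ℚ_[p]) := by
  have h1 : Irreducible ((shifted p n).map (algebraMap ℤ_[p] ℚ_[p])) :=
    (Polynomial.Monic.irreducible_iff_irreducible_map_fraction_map (shifted_monic p n)).mp
      (shifted_irreducible p n)
  have h2 : (shifted p n).map (algebraMap ℤ_[p] ℚ_[p]) =
      algEquivAevalXAddC (1 : ℚ_[p]) (cyclotomic (p ^ (n + 1)) ℚ_[p]) := by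
    rw [shifted, Polynomial.map_comp, map_cyclotomic, Polynomial.map_add, map_X, Polynomial.map_one,
      algEquivAevalXAddC_apply]
    simp [aeval_def, eval₂_eq_eval_map, comp]
  rw [h2] at h1
  exact (MulEquiv.irreducible_iff (algEquivAevalXAddC (1 : ℚ_[p]))).mp h1

end Fermat.Agent.S56.Base.Arith.CyclotomicPadic
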