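import Mathlib
import Fermat.Prelude.Def_ExtEndgame_ProductionDatum
import Fermat.Agent.CFT.D.Reduce
import Fermat.Agent.CFT.C7.KummerUnram
import Fermat.Agent.CFT.LocalBridge.Decomposition
import Fermat.Agent.Lib.FrobeniusExists
import Fermat.Agent.S56.Cheb.Galois.CycChar
import Fermat.Agent.S56.Base.Arith.CyclotomicPadic

/-!
# PROJECT T (S56), block (a1-II), leaf (L-deg): the local degrees of the `S`-levels are divisible by
arbitrarily high powers of `p`

For `p ∈ S` and every `N` there is a level `U` of `G_{ℚ,S}` (inside the fixing subgroup of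
`ℚ(ζ_{p^(M+1)})`, `M` large) such that for every `q ∈ S` the index of `U ∩ G_q` in the local group
`G_q` is divisible by `p ^ N`:

* `q = p`: the cyclotomic character modulo `p ^ (M + 1)` is still surjective on `G_p`, because
  `Φ_{p^(M+1)}` is irreducible over `ℚ_p` (`CyclotomicPadic`);
* `q ≠ p`: a Frobenius at `q` lies in `G_q` and is sent to `q mod p ^ (M + 1)`, whose order `r`
  satisfies `p ^ (M + 1) ∣ q ^ r - 1`, so `r` is large; as `r ∣ p ^ M (p - 1)`, a large `r` is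
  divisible by `p ^ N`.

The relative form (`p ∣ [U₀ ∩ G_q : U ∩ G_q]` cofinally) follows by multiplicativity of the index.
-/

set_option autoImplicit false
set_option linter.unusedSectionVars false
set_option linter.style.haveILetI false

noncomputable section

namespace Fermat.Agent.S56.Base.Arith.LocalDegree

open Polynomial ExtCitation
open Fermat.Agent.CFT.Bridge Fermat.Agent.CFT.C7.KummerUnram Fermat.Agent.CFT.LocalBridge
open Fermat.Agent.S56.Cheb.Galois.CycChar

local notation "Qb" => AlgebraicClosure ℚ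

/-! ### (A) arithmetic -/

/-- A divisor of `p ^ M (p - 1)` which is not a multiple of `p ^ N` is smaller than `p ^ N`. -/
theorem lt_pow_of_dvd_of_not_pow_dvd {p : ℕ} (hp : p.Prime) {r M N : ℕ}
    (hr : r ∣ p ^ M * (p - 1)) (hN : ¬ p ^ N ∣ r) : r < p ^ N := by
  have hpos : 0 < p ^ M * (p - 1) :=
    Nat.mul_pos (pow_pos hp.pos _) (Nat.sub_pos_of_lt hp.one_lt)
  have hr0 : r ≠ 0 := by
    rintro rfl
    exact hpos.ne' (Nat.eq_zero_of_zero_dvd hr)
  obtain ⟨k, m, hm, rfl⟩ := Nat.exists_eq_pow_mul_and_not_dvd hr0 p hp.ne_one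
  have hk : k < N := by
    by_contra hk
    exact hN (Dvd.dvd.mul_right (pow_dvd_pow p (not_lt.mp hk)) m)
  have hcop : Nat.Coprime m (p ^ M) :=
    Nat.Coprime.pow_right _ ((Nat.Prime.coprime_iff_not_dvd hp).mpr hm).symm
  have hm1 : m ∣ p - 1 := by
    have h1 : m ∣ p ^ M * (p - 1) := Dvd.dvd.trans (Dvd.intro_left _ rfl) hr
    exact hcop.dvd_of_dvd_mul_left h1
  have hm2 : m < p :=
    lt_of_le_of_lt (Nat.le_of_dvd (Nat.sub_pos_of_lt hp.one_lt) hm1) (Nat.sub_lt hp.pos one_pos)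
  calc p ^ k * m < p ^ k * p := Nat.mul_lt_mul_of_pos_left hm2 (pow_pos hp.pos _)
    _ = p ^ (k + 1) := (pow_succ _ _).symm
    _ ≤ p ^ N := Nat.pow_le_pow_right hp.pos hk

/-! ### (B) the cyclotomic character on a primitive root -/

section Chi

variable (N : ℕ) [NeZero N]

theorem apply_eq_pow_of_primitiveRoot {ζ : Qb} (hζ : IsPrimitiveRoot ζ N) (g : Qb ≃ₐ[ℚ] Qb)
    (a : ℕ) (h : g ζ = ζ ^ a) (t : Qb) (ht : t ^ N = 1) : g t = t ^ a := by
  obtain ⟨i, -, rfl⟩ := hζ.eq_pow_of_pow_eq_one ht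
  rw [map_pow, h, ← pow_mul, ← pow_mul, mul_comm]

theorem chi_eq_of_apply_primitiveRoot {ζ : Qb} (hζ : IsPrimitiveRoot ζ N) (g : Qb ≃ₐ[ℚ] Qb)
    (a : ℕ) (h : g ζ = ζ ^ a) : ((chi N g : (ZMod N)ˣ) : ZMod N) = (a : ZMod N) :=
  chi_eq_of_pow N g a (apply_eq_pow_of_primitiveRoot N hζ g a h)

/-- the fixing subgroup of `ℚ(ζ_N)` lies in the kernel of `chi N` -/
theorem fixingSubgroup_le_ker {ζ : Qb} (hζ : IsPrimitiveRoot ζ N) :
    (IntermediateField.adjoin ℚ {ζ}).fixingSubgroup ≤ (chi N).ker := by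
  intro g hg
  rw [MonoidHom.mem_ker, chi_eq_one_iff]
  have h1 : g ζ = ζ ^ 1 := by
    rw [pow_one]
    exact (IntermediateField.mem_fixingSubgroup_iff _ g).mp hg ζ
      (IntermediateField.mem_adjoin_simple_self ℚ ζ)
  intro t ht
  rw [apply_eq_pow_of_primitiveRoot N hζ g 1 h1 t ht, pow_one]

end Chi

/-! ### (C) the local cyclotomic characters -/

section Local

variable (p : ℕ) [Fact p.Prime]

/-- **At `p` the cyclotomic character modulo `p ^ (n + 1)` is onto on the local Galois group.** -/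
theorem chi_comp_local_surjective (n : ℕ) :
    Function.Surjective ((chi (p ^ (n + 1))).comp (localGaloisToGlobal p)) := by
  intro u
  have hp : p.Prime := Fact.out
  have hpos : 0 < p ^ (n + 1) := pow_pos hp.pos _
  obtain ⟨ζ, hζ⟩ := exists_primitiveRoot (p ^ (n + 1))
  set a : ℕ := ((u : (ZMod (p ^ (n + 1)))ˣ) : ZMod (p ^ (n + 1))).val with ha
  have hcop : a.Coprime (p ^ (n + 1)) := ZMod.val_coe_unit_coprime u
  have hinj : Function.Injective (padicEmbedding p) := (padicEmbedding p).toRingHom.injective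
  have hz : IsPrimitiveRoot (padicEmbedding p ζ) (p ^ (n + 1)) := hζ.map_of_injective hinj
  have hza : IsPrimitiveRoot (padicEmbedding p ζ ^ a) (p ^ (n + 1)) := hz.pow_of_coprime a hcop
  haveI : NeZero ((p ^ (n + 1) : ℕ) : ℚ_[p]) := ⟨by exact_mod_cast hpos.ne'⟩
  have hmin := hz.minpoly_eq_cyclotomic_of_irreducible (K := ℚ_[p])
    (CyclotomicPadic.irreducible_cyclotomic p n)
  have halg : IsAlgebraic ℚ_[p] (padicEmbedding p ζ) :=
    (AlgebraicClosure.isAlgebraic ℚ_[p]).isAlgebraic _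
  haveI : IsAlgClosure ℚ_[p] (PadicAlgCl p) := ⟨inferInstance, AlgebraicClosure.isAlgebraic ℚ_[p]⟩
  haveI : Normal ℚ_[p] (PadicAlgCl p) := IsAlgClosure.normal ℚ_[p] (PadicAlgCl p)
  have hev : aeval (padicEmbedding p ζ ^ a) (minpoly ℚ_[p] (padicEmbedding p ζ)) = 0 := by
    rw [← hmin, aeval_def, eval₂_eq_eval_map, map_cyclotomic]
    exact hza.isRoot_cyclotomic hpos
  obtain ⟨τ, hτ⟩ := minpoly.exists_algEquiv_of_root' halg hev
  refine ⟨τ, ?_⟩
  apply Units.ext
  have h1 : localGaloisToGlobal p τ ζ = ζ ^ a := by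
    apply hinj
    rw [padicEmbedding_localGaloisToGlobal, hτ, map_pow]
  rw [MonoidHom.comp_apply, chi_eq_of_apply_primitiveRoot _ hζ _ a h1, ha, ZMod.natCast_val,
    ZMod.cast_id', id]

/-- **At `q ≠ p` the local Galois group contains an element sent to `q` by the cyclotomic
character modulo `p ^ m`** (a Frobenius). -/
theorem exists_chi_comp_local_eq (q : ℕ) [Fact q.Prime] (hqp : q ≠ p) (m : ℕ) :
    ∃ τ : PadicAlgCl q ≃ₐ[ℚ_[q]] PadicAlgCl q,
      ((chi (p ^ m) (localGaloisToGlobal q τ) : (ZMod (p ^ m))ˣ) : ZMod (p ^ m)) =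
        (q : ZMod (p ^ m)) := by
  have hq : q.Prime := Fact.out
  have hA := liesOverPrime_padicPlace q
  obtain ⟨σ, hσ⟩ := Fermat.Agent.Lib.FrobeniusExists.exists_isFrobeniusAt_algebraicClosure
    (padicPlace q) hq hA
  have hmem : σ ∈ (localGaloisToGlobal q).range := by
    rw [range_localGaloisToGlobal]
    exact hσ.mem_decompositionSubgroup
  obtain ⟨τ, rfl⟩ := hmem
  refine ⟨τ, chi_eq_of_pow _ _ q fun t ht => ?_⟩
  have hN : p ^ m ≠ 0 := pow_ne_zero _ (Fact.out : p.Prime).ne_zero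
  have htA : t ∈ padicPlace q := Fermat.Agent.S30.Algebra.Cyclotomic.mem_of_pow_eq_one _ hN ht
  refine Fermat.Agent.S30.Algebra.Cyclotomic.eq_of_sub_mem_nonunits p (padicPlace q) hq hqp hA
    (n := m) ?_ ?_ (Fermat.Agent.S30.Algebra.Cyclotomic.isFrobeniusAt_apply hσ t htA)
  · rw [← map_pow, ht, map_one]
  · rw [← pow_mul, mul_comm, pow_mul, ht, one_pow]

end Local

/-! ### (D) group theory: the order of the image -/

section Order

variable (p : ℕ) [Fact p.Prime] {G : Type*} [Group G]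

theorem card_units_zmod_pow (M : ℕ) : Nat.card (ZMod (p ^ (M + 1)))ˣ = p ^ M * (p - 1) := by
  rw [Nat.card_eq_fintype_card, ZMod.card_units_eq_totient,
    Nat.totient_prime_pow_succ (Fact.out : p.Prime)]

theorem card_range_dvd (M : ℕ) (f : G →* (ZMod (p ^ (M + 1)))ˣ) :
    Nat.card f.range ∣ p ^ M * (p - 1) := by
  rw [← card_units_zmod_pow p M]
  exact Subgroup.card_subgroup_dvd_card _

/-- If the image of `f : G →* (ℤ/p^(M+1))ˣ` contains the class of `q ≥ 2` and `q ^ (p ^ N) ≤ M`,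
then `p ^ N` divides the order of the image. -/
theorem pow_dvd_card_range_of_apply_eq {q M N : ℕ} (hq : 1 < q) (hM : q ^ (p ^ N) ≤ M)
    (f : G →* (ZMod (p ^ (M + 1)))ˣ) (x : G)
    (hx : ((f x : (ZMod (p ^ (M + 1)))ˣ) : ZMod (p ^ (M + 1))) = (q : ZMod (p ^ (M + 1)))) :
    p ^ N ∣ Nat.card f.range := by
  have hp : p.Prime := Fact.out
  by_contra hnd
  set r := Nat.card f.range with hr
  have hrlt : r < p ^ N := lt_pow_of_dvd_of_not_pow_dvd hp (card_range_dvd p M f) hnd
  have hr0 : r ≠ 0 := Nat.card_pos.ne'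
  have h1 : (⟨f x, MonoidHom.mem_range.mpr ⟨x, rfl⟩⟩ : f.range) ^ r = 1 := pow_card_eq_one'
  have h2 : (f x) ^ r = 1 := by
    have := congrArg Subtype.val h1
    simpa using this
  have h3 : ((q ^ r : ℕ) : ZMod (p ^ (M + 1))) = ((1 : ℕ) : ZMod (p ^ (M + 1))) := by
    have := congrArg (fun u : (ZMod (p ^ (M + 1)))ˣ => (u : ZMod (p ^ (M + 1)))) h2
    simp only [Units.val_pow_eq_pow_val, Units.val_one, hx] at this
    rw [Nat.cast_pow, this, Nat.cast_one]
  have h4 : q ^ r ≡ 1 [MOD p ^ (M + 1)] := (ZMod.natCast_eq_natCast_iff _ _ _).mp h3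
  have hone : 1 < q ^ r := Nat.one_lt_pow hr0 hq
  have h5 : p ^ (M + 1) ∣ q ^ r - 1 := (Nat.modEq_iff_dvd' hone.le).mp h4.symm
  have h6 : p ^ (M + 1) ≤ q ^ r - 1 := Nat.le_of_dvd (Nat.sub_pos_of_lt hone) h5
  have h7 : q ^ r < q ^ (p ^ N) := Nat.pow_lt_pow_right hq hrlt
  have h8 : M + 1 < p ^ (M + 1) := Nat.lt_pow_self hp.one_lt
  omega

/-- Surjective case. -/
theorem pow_dvd_card_range_of_surjective {M N : ℕ} (hM : N ≤ M)
    (f : G →* (ZMod (p ^ (M + 1)))ˣ) (hf : Function.Surjective f) :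
    p ^ N ∣ Nat.card f.range := by
  rw [MonoidHom.range_eq_top.mpr hf, Subgroup.card_top, card_units_zmod_pow]
  exact Dvd.dvd.mul_right (pow_dvd_pow p hM) _

theorem pow_dvd_index_of_le_ker {N : ℕ} {H : Type*} [Group H] (f : G →* H)
    (hdvd : p ^ N ∣ Nat.card f.range) (V : Subgroup G) (hV : V ≤ f.ker) : p ^ N ∣ V.index := by
  refine dvd_trans hdvd ?_
  rw [← Subgroup.index_ker]
  exact Subgroup.index_dvd_of_le hV

end Order

/-! ### (E) the levels -/

section Main

open Fermat.Agent.CFT.D.Reduce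

variable (S : Finset Nat.Primes) (p : ℕ) [Fact p.Prime]

/-- the exponent `M` of the cyclotomic level used for `N` -/
def expo (N : ℕ) : ℕ := N + ∑ q ∈ S, (q : ℕ) ^ (p ^ N)

theorem le_expo (N : ℕ) : N ≤ expo S p N := Nat.le_add_right _ _

theorem pow_le_expo (N : ℕ) {q : Nat.Primes} (hq : q ∈ S) : (q : ℕ) ^ (p ^ N) ≤ expo S p N :=
  le_trans (Finset.single_le_sum (f := fun q : Nat.Primes => (q : ℕ) ^ (p ^ N))
    (fun _ _ => Nat.zero_le _) hq) (Nat.le_add_left _ _)

/-- the local statement at one prime `q ∈ S`, for every subgroup inside the kernel of the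
cyclotomic character modulo `p ^ (M + 1)` -/
theorem pow_dvd_index_comap (N : ℕ) (q : Nat.Primes) (hq : q ∈ S)
    (U : Subgroup (Qb ≃ₐ[ℚ] Qb)) (hU : U ≤ (chi (p ^ (expo S p N + 1))).ker) :
    p ^ N ∣ (U.comap (primeLocalToGlobal q)).index := by
  haveI : Fact (q : ℕ).Prime := ⟨q.2⟩
  have hle : U.comap (primeLocalToGlobal q) ≤
      ((chi (p ^ (expo S p N + 1))).comp (primeLocalToGlobal q)).ker := by
    rw [← MonoidHom.comap_ker]
    exact Subgroup.comap_mono hU
  refine pow_dvd_index_of_le_ker p _ ?_ _ hle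
  by_cases hqp : (q : ℕ) = p
  · refine pow_dvd_card_range_of_surjective p (le_expo S p N) _ ?_
    intro u
    have h := chi_comp_local_surjective p (expo S p N) u
    subst hqp
    exact h
  · obtain ⟨τ, hτ⟩ := exists_chi_comp_local_eq p (q : ℕ) hqp (expo S p N + 1)
    exact pow_dvd_card_range_of_apply_eq p q.2.one_lt (pow_le_expo S p N hq) _ τ hτ

/-- **(L-deg)** For `p ∈ S` and every `N` there is a level of `G_{ℚ,S}` all of whose local degrees
at the primes of `S` are divisible by `p ^ N`. -/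
theorem exists_level_pow_dvd (hpS : pPrime p ∈ S) (N : ℕ) :
    ∃ U ∈ (levelsS S).sets, ∀ q : ↥S, p ^ N ∣ Nat.card (Gv S q ⧸ (U.comap (rv S q))) := by
  obtain ⟨ζ, hζ⟩ := exists_primitiveRoot (p ^ (expo S p N + 1))
  have hS : IsSNat S (p ^ (expo S p N + 1)) := (isSNat_prime hpS).pow _
  obtain ⟨U, hU, hUle⟩ := exists_level_le
    (isUnramifiedOutside_adjoin_of_pow_eq_one hS hζ.pow_eq_one)
  refine ⟨U, hU, fun q => ?_⟩
  exact pow_dvd_index_comap S p N q.1 q.2 U (hUle.trans (fixingSubgroup_le_ker _ hζ))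

/-- **(L-deg), relative form**: below every level `U₀` there is a level `U` such that `p` divides
all the local relative indices `[U₀ ∩ G_q : U ∩ G_q]`, `q ∈ S`. -/
theorem exists_level_le_dvd_relIndex (hpS : pPrime p ∈ S) :
    ∀ U0 ∈ (levelsS S).sets, ∃ U ∈ (levelsS S).sets, U ≤ U0 ∧
      ∀ q : ↥S, p ∣ (U.comap (rv S q)).relIndex (U0.comap (rv S q)) := by
  intro U0 hU0
  have hp : p.Prime := Fact.out
  have hfin : U0.FiniteIndex := Fermat.Agent.CFT.LC.Levels.IsFin.finiteIndex U0 hU0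
  set N : ℕ := ∑ q : ↥S, (U0.comap (rv S q)).index with hN
  obtain ⟨U1, hU1, h1⟩ := exists_level_pow_dvd S p hpS N
  obtain ⟨U, hU, hle⟩ := (levelsS S).directed U1 hU1 U0 hU0
  refine ⟨U, hU, hle.trans inf_le_right, fun q => ?_⟩
  by_contra hnd
  have hle0 : U.comap (rv S q) ≤ U0.comap (rv S q) := Subgroup.comap_mono (hle.trans inf_le_right)
  have hle1 : U.comap (rv S q) ≤ U1.comap (rv S q) := Subgroup.comap_mono (hle.trans inf_le_left)
  have h2 : p ^ N ∣ (U.comap (rv S q)).index :=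
    dvd_trans (h1 q) (Subgroup.index_dvd_of_le hle1)
  rw [← Subgroup.relIndex_mul_index hle0] at h2
  have hcop : Nat.Coprime (p ^ N) ((U.comap (rv S q)).relIndex (U0.comap (rv S q))) :=
    Nat.Coprime.pow_left _ ((Nat.Prime.coprime_iff_not_dvd hp).mpr hnd)
  have h3 : p ^ N ∣ (U0.comap (rv S q)).index := hcop.dvd_of_dvd_mul_left h2
  have h0 : (U0.comap (rv S q)).index ≠ 0 := by
    rw [Subgroup.index_comap]
    haveI := hfin
    exact (Subgroup.instFiniteIndex_subgroupOf U0 (rv S q).range).index_ne_zero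
  have h4 : p ^ N ≤ (U0.comap (rv S q)).index := Nat.le_of_dvd (Nat.pos_of_ne_zero h0) h3
  have h5 : (U0.comap (rv S q)).index ≤ N :=
    Finset.single_le_sum (f := fun q : ↥S => (U0.comap (rv S q)).index)
      (fun _ _ => Nat.zero_le _) (Finset.mem_univ q)
  have h6 : N < p ^ N := Nat.lt_pow_self hp.one_lt
  omega

end Main

end Fermat.Agent.S56.Base.Arith.LocalDegree
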