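import Mathlib
import Fermat.Agent.S56.Unip.ProCyclic
import Fermat.Agent.CFT.LocalBridge.Krasner
import Fermat.Agent.Lib.FrobeniusExists

/-!
# PROJECT T (S56), block (a1-II) `S56/Base`, leaf (P2-b): a Frobenius lift topologically generates
`Gal(ℚ̄_q/ℚ_q)` modulo inertia, with procyclic quotient `≅ Ẑ`

For `G := LocGal q`, `r := localGaloisToGlobal q`, `𝒰 := levelsOf r` and
`I := (Iq q).comap r` (`= localInertia q`, normal in `G`):

* `comap_Iq`, `normal_localInertia`, `normal_comap_Iq`;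
* `exists_frob_unr` : there is `φ : G` such that
  (PC) for every level `U` and every `g`, `g = φ ^ i * s * u` with `i : ℕ`, `s ∈ I`, `u ∈ U`;
  (UE) for every `m > 0` there is a level `U` such that `φ ^ i ∈ I * U` forces `m ∣ i`.

(PC) is main's `ProCyclic.eq_top_of_locFrob_mem` applied to `zpowers φ ⊔ (I ⊔ U)`; the integer
exponent is made natural with a power of `φ` lying in `U` (finite index). (UE): the level is the
pull-back of the normal core of the fixing subgroup of `ℚ(ζ_N)`, `N = q ^ m - 1`; on the `N`-th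
roots of unity of `PadicAlgCl q` inertia acts trivially and `φ` acts by `z ↦ z ^ q` (distinct roots
of unity of order prime to `q` are at distance `1`), so `φ ^ i z = z` gives `N ∣ q ^ i - 1`, i.e.
`m ∣ i`.
-/

set_option autoImplicit false

namespace Fermat.Agent.S56.Base.Arith.UnrFrob

open Fermat.Agent.CFT.Local.Model Fermat.Agent.CFT.Local.PadicAlgClLocal
  Fermat.Agent.CFT.LocalBridge Fermat.Agent.CFT.Bridge Fermat.Agent.CFT.LC
  Fermat.Agent.S56.Coh Fermat.Agent.S56.Unip.ProCyclic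

variable (q : ℕ) [Fact q.Prime]

/-- The pull-back of the global inertia group at `padicPlace q` is the local inertia group. -/
theorem comap_Iq : (Iq q).comap (localGaloisToGlobal q) = localInertia q := by
  ext τ
  rw [Subgroup.mem_comap]
  change localGaloisToGlobal q τ ∈ (padicPlace q).inertiaSubgroupIn ℚ ↔ _
  rw [inertiaSubgroupIn_padicPlace, Subgroup.mem_map]
  constructor
  · rintro ⟨τ', hτ', h⟩
    rwa [← localGaloisToGlobal_injective q h]
  · intro h
    exact ⟨τ, h, rfl⟩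

theorem normal_localInertia : (localInertia q).Normal := by
  refine ⟨fun τ hτ g => ?_⟩
  rw [mem_localInertia_iff] at hτ ⊢
  intro z hz
  have h1 : ‖g⁻¹ z‖ ≤ 1 := by rw [norm_locGal_apply]; exact hz
  have h2 : (g * τ * g⁻¹) z - z = g (τ (g⁻¹ z) - g⁻¹ z) := by
    rw [map_sub, AlgEquiv.mul_apply, AlgEquiv.mul_apply]
    congr 1
    change z = g (g.symm z)
    rw [AlgEquiv.apply_symm_apply]
  rw [h2, norm_locGal_apply]
  exact hτ _ h1

/-- `I := (Iq q).comap (localGaloisToGlobal q)` is a normal subgroup of the local Galois group. -/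
theorem normal_comap_Iq : ((Iq q).comap (localGaloisToGlobal q)).Normal := by
  rw [comap_Iq]
  exact normal_localInertia q

/-! ### A Frobenius lift on roots of unity of order prime to `q` -/

theorem locFrob_apply_of_pow_eq_one {φ : LocGal q} (hφ : IsLocFrob q φ) {N : ℕ} (hN : ¬ q ∣ N)
    {z : PadicAlgCl q} (hz : z ^ N = 1) : φ z = z ^ q := by
  have hN0 : N ≠ 0 := fun h0 => hN (h0 ▸ dvd_zero q)
  by_contra hne
  have h1 : (φ z) ^ N = 1 := by rw [← map_pow, hz, map_one]
  have h2 : (z ^ q) ^ N = 1 := by rw [← pow_mul, mul_comm, pow_mul, hz, one_pow]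
  have h3 := norm_sub_eq_one_of_pow_eq_one q hN h1 h2 hne
  have h4 := hφ z (norm_eq_one_of_pow_eq_one q hN0 hz).le
  rw [h3] at h4
  exact lt_irrefl _ h4

theorem pow_locFrob_apply_of_pow_eq_one {φ : LocGal q} (hφ : IsLocFrob q φ) {N : ℕ}
    (hN : ¬ q ∣ N) {z : PadicAlgCl q} (hz : z ^ N = 1) (i : ℕ) :
    (φ ^ i) z = z ^ (q ^ i) := by
  induction i with
  | zero => simp
  | succ i ih =>
    rw [pow_succ, AlgEquiv.mul_apply, locFrob_apply_of_pow_eq_one q hφ hN hz, map_pow, ih,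
      ← pow_mul, ← pow_succ]

/-- `q ^ m - 1 ∣ q ^ i - 1` only if `m ∣ i`. -/
theorem dvd_of_pow_sub_one_dvd {a m i : ℕ} (ha : 1 < a) (h : a ^ m - 1 ∣ a ^ i - 1) : m ∣ i := by
  have h1 := Nat.pow_sub_one_mod_pow_sub_one a m i
  rw [Nat.mod_eq_zero_of_dvd h] at h1
  have h2 : a ^ (i % m) = 1 := by
    have := Nat.one_le_pow (i % m) a (by omega)
    omega
  have h3 : i % m = 0 := by
    by_contra hne
    have := Nat.one_lt_pow hne ha
    omega
  exact Nat.dvd_of_mod_eq_zero h3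

/-! ### (PC) -/

theorem pc {φ : LocGal q} (hφ : IsLocFrob q φ) :
    ∀ U ∈ (levelsOf (localGaloisToGlobal q)).sets, ∀ g : LocGal q, ∃ i : ℕ,
      ∃ s ∈ (Iq q).comap (localGaloisToGlobal q), ∃ u ∈ U, g = φ ^ i * s * u := by
  intro U hU g
  rw [comap_Iq]
  have hUn : U.Normal := (levelsOf (localGaloisToGlobal q)).normal U hU
  have hUf : U.FiniteIndex := Levels.IsFin.finiteIndex U hU
  have hIn : (localInertia q).Normal := normal_localInertia q
  obtain ⟨V, ⟨-, F, hF, rfl⟩, rfl⟩ := hU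
  have : FiniteDimensional ℚ F := hF
  set U := F.fixingSubgroup.comap (localGaloisToGlobal q) with hUdef
  set K : Subgroup (LocGal q) := Subgroup.zpowers φ ⊔ (localInertia q ⊔ U) with hK
  have hE : (localLevel q F).fixingSubgroup ≤ K := by
    rw [← comap_fixingSubgroup]
    exact le_sup_of_le_right le_sup_right
  have htop : K = ⊤ :=
    eq_top_of_locFrob_mem q K (le_sup_of_le_right le_sup_left) (localLevel q F) hE φ hφ
      (le_sup_left (a := Subgroup.zpowers φ) (Subgroup.mem_zpowers φ))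
  have hg : g ∈ K := htop ▸ Subgroup.mem_top g
  have hN : (localInertia q ⊔ U).Normal := inferInstance
  have h1 : g ∈ ((Subgroup.zpowers φ ⊔ (localInertia q ⊔ U) : Subgroup (LocGal q)) :
      Set (LocGal q)) := hg
  rw [Subgroup.mul_normal] at h1
  obtain ⟨a, ha, n, hn, rfl⟩ := Set.mem_mul.mp h1
  have h2 : n ∈ ((localInertia q ⊔ U : Subgroup (LocGal q)) : Set (LocGal q)) := hn
  rw [Subgroup.mul_normal] at h2
  obtain ⟨s, hs, u, hu, rfl⟩ := Set.mem_mul.mp h2
  obtain ⟨j, rfl⟩ := Subgroup.mem_zpowers_iff.mp ha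
  obtain ⟨n, hn0, -, hn⟩ := Subgroup.exists_pow_mem_of_index_ne_zero hUf.index_ne_zero φ
  have hnZ : (0 : ℤ) < n := by exact_mod_cast hn0
  have hmod : 0 ≤ j % (n : ℤ) := Int.emod_nonneg j hnZ.ne'
  set v : LocGal q := (φ ^ n) ^ (j / (n : ℤ)) with hv
  have hvU : v ∈ U := Subgroup.zpow_mem U hn _
  refine ⟨(j % (n : ℤ)).toNat, v * s * v⁻¹, hIn.conj_mem s hs v, v * u, U.mul_mem hvU hu, ?_⟩
  have h3 : φ ^ j = φ ^ (j % (n : ℤ)).toNat * v := by
    rw [hv, ← zpow_natCast φ n, ← zpow_mul, ← zpow_natCast φ (j % (n : ℤ)).toNat,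
      Int.toNat_of_nonneg hmod, ← zpow_add, Int.emod_add_mul_ediv]
  rw [h3]
  group

/-! ### (UE) -/

theorem ue {φ : LocGal q} (hφ : IsLocFrob q φ) :
    ∀ m : ℕ, 0 < m → ∃ U ∈ (levelsOf (localGaloisToGlobal q)).sets, ∀ i : ℕ,
      (∃ s ∈ (Iq q).comap (localGaloisToGlobal q), ∃ u ∈ U, φ ^ i = s * u) → m ∣ i := by
  intro m hm
  have hq : q.Prime := Fact.out
  have hq1 : 1 < q := hq.one_lt
  set N : ℕ := q ^ m - 1 with hNdef
  have hqm : q ≤ q ^ m := by
    calc q = q ^ 1 := (pow_one q).symm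
      _ ≤ q ^ m := Nat.pow_le_pow_right hq.pos hm
  have hN0 : N ≠ 0 := by omega
  have hqN : ¬ q ∣ N := by
    intro hdvd
    have h1 : q ∣ q ^ m := dvd_pow_self q hm.ne'
    have h2 : q ∣ q ^ m - N := Nat.dvd_sub h1 hdvd
    have h3 : q ^ m - N = 1 := by omega
    rw [h3] at h2
    exact hq.one_lt.ne' (Nat.dvd_one.mp h2)
  have : NeZero N := ⟨hN0⟩
  obtain ⟨ζ, hζ⟩ := HasEnoughRootsOfUnity.exists_primitiveRoot (AlgebraicClosure ℚ) N
  -- the number field `ℚ(ζ)` and a level inside its fixing subgroup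
  have hint : IsIntegral ℚ ζ := (hζ.isIntegral (Nat.pos_of_ne_zero hN0)).tower_top
  have : FiniteDimensional ℚ (IntermediateField.adjoin ℚ {ζ}) :=
    IntermediateField.adjoin.finiteDimensional hint
  obtain ⟨V, hV, hVle⟩ := exists_levelAll_le (IntermediateField.adjoin ℚ {ζ})
  refine ⟨V.comap (localGaloisToGlobal q), ⟨V, hV, rfl⟩, ?_⟩
  rintro i ⟨s, hs, u, hu, hsu⟩
  rw [comap_Iq] at hs
  set z : PadicAlgCl q := padicEmbedding q ζ with hzdef
  have hzprim : IsPrimitiveRoot z N := hζ.map_of_injective (padicEmbedding_injective q)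
  have hzN : z ^ N = 1 := hzprim.pow_eq_one
  -- `u` fixes `z`
  have huz : u z = z := by
    have h1 : localGaloisToGlobal q u ∈ (IntermediateField.adjoin ℚ {ζ}).fixingSubgroup :=
      hVle (Subgroup.mem_comap.mp hu)
    have h2 : localGaloisToGlobal q u ζ = ζ :=
      (IntermediateField.mem_fixingSubgroup_iff _ _).mp h1 ζ
        (IntermediateField.mem_adjoin_simple_self ℚ ζ)
    rw [hzdef, ← padicEmbedding_localGaloisToGlobal, h2]
  -- `s` fixes `z`
  have hsz : s z = z := by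
    rw [localInertia_eq_fixingSubgroup] at hs
    exact (IntermediateField.mem_fixingSubgroup_iff _ _).mp hs z
      (mem_nrField_of_pow_eq_one q hqN hzN)
  have h1 : (φ ^ i) z = z := by rw [hsu, AlgEquiv.mul_apply, huz, hsz]
  rw [pow_locFrob_apply_of_pow_eq_one q hφ hqN hzN] at h1
  -- `z ^ (q ^ i - 1) = 1`
  have hqi : 1 ≤ q ^ i := Nat.one_le_pow i q hq.pos
  have hz0 : z ≠ 0 := hzprim.ne_zero hN0
  have h2 : z ^ (q ^ i - 1) = 1 := by
    have h3 : z ^ (q ^ i - 1) * z = 1 * z := by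
      rw [← pow_succ, Nat.sub_add_cancel hqi, h1, one_mul]
    exact mul_right_cancel₀ hz0 h3
  exact dvd_of_pow_sub_one_dvd hq1 (hzprim.dvd_of_pow_eq_one _ h2)

/-- **(P2-b).** A Frobenius lift `φ` generates `Gal(ℚ̄_q/ℚ_q)` modulo inertia and any level, and
its image in the unramified quotient has infinite order in the strong (`Ẑ`) sense. -/
theorem exists_frob_unr :
    ∃ φ : LocGal q,
      (∀ U ∈ (levelsOf (localGaloisToGlobal q)).sets, ∀ g : LocGal q, ∃ i : ℕ,
        ∃ s ∈ (Iq q).comap (localGaloisToGlobal q), ∃ u ∈ U, g = φ ^ i * s * u) ∧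
      (∀ m : ℕ, 0 < m → ∃ U ∈ (levelsOf (localGaloisToGlobal q)).sets, ∀ i : ℕ,
        (∃ s ∈ (Iq q).comap (localGaloisToGlobal q), ∃ u ∈ U, φ ^ i = s * u) → m ∣ i) := by
  obtain ⟨φ0, hφ0⟩ := Fermat.Agent.Lib.FrobeniusExists.exists_isFrobeniusAt_algebraicClosure
    (padicPlace q) (Fact.out : q.Prime) (liesOverPrime_padicPlace q)
  obtain ⟨φ, -, hφ⟩ := exists_locFrob q hφ0
  exact ⟨φ, pc q hφ, ue q hφ⟩

end Fermat.Agent.S56.Base.Arith.UnrFrob
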